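import Mathlib
import Fermat.Agent.S08
import Fermat.Agent.X0.Mod.FormalSide
import Fermat.Agent.X0.Mod.DictionaryAn
import Fermat.Agent.X0.ES.Main
import Fermat.Agent.X0.Mod.GenusArith
import Fermat.Agent.X0.Mod.Monodromy

/-!
# X0: the core of S20 (dimension of `S₂(Γ₀(N))`)

* `S20Core.finrank_cuspForm_one`: level one, both sides vanish;
* `S20Core.finrank_cuspForm_eq`: S20 from its three inputs: the field `ℂ(j, j_N)` with generator
  `x = j`, the ramification count of `x`, and a space of holomorphic differentials of dimension at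
  least the genus (upper bound: Eichler-Shimura, `X0/ES/Main`; lower bound: the dictionary
  `X0/Mod/DictionaryAn`).
-/

set_option autoImplicit false
set_option linter.style.haveILetI false

namespace Fermat.Agent.X0.S20Core

open Fermat.Agent.X0 UpperHalfPlane AlgebraicCurve IntermediateField CongruenceSubgroup Module
open scoped MatrixGroups

/-- **S20 at level one**: both sides vanish. -/
theorem finrank_cuspForm_one :
    (finrank ℂ (CuspForm (Gamma0 1) 2) : ℚ) = ModularCurve.genusFormula 1 := by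
  haveI : Subsingleton (CuspForm (Gamma0 1) 2) :=
    ⟨fun f g => by rw [Fermat.Agent.S08.result f, Fermat.Agent.S08.result g]⟩
  rw [FormalSide.genusFormula_one, Module.finrank_zero_of_subsingleton]
  simp

variable {N : ℕ} [NeZero N]

/-- **S20 from its three inputs**: the field `ℂ(j, j_N)` with generator `x = j`, the ramification
count, and a space `V` of holomorphic differentials of dimension `≥ g`. -/
theorem finrank_cuspForm_eq {x : fieldAn N} (hx : (x : MerH) = xM) (h : IsFFGen ℂ x)
    (hR : ((((∑ᶠ v : Place ℂ (fieldAn N), (ramIdx x v - 1)) + 2 -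
      2 * (finrank ℂ⟮x⟯ (fieldAn N) : ℤ)).toNat / 2 : ℕ) : ℚ) = ModularCurve.genusFormula N)
    (V : Submodule ℂ (fieldAn N))
    (hV : ∀ y ∈ V, ∀ v : Place ℂ (fieldAn N), y = 0 ∨
      (if v.ord x < 0 then ramIdx x v + 1 else -(ramIdx x v - 1)) ≤ v.ord y)
    (hRR : (∑ᶠ v : Place ℂ (fieldAn N), (ramIdx x v - 1)) + 2 -
      2 * (finrank ℂ⟮x⟯ (fieldAn N) : ℤ) ≤ 2 * (finrank ℂ V : ℤ)) :
    (finrank ℂ (CuspForm (Gamma0 N) 2) : ℚ) = ModularCurve.genusFormula N := by
  haveI := finite_cuspForm_Gamma0_two N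
  have h1 := finrank_le_finrank_cuspForm_fieldAn hx h V hV
  have h2 := finrank_cuspForm_Gamma0_two_le N
  have h3 : ((∑ᶠ v : Place ℂ (fieldAn N), (ramIdx x v - 1)) + 2 -
      2 * (finrank ℂ⟮x⟯ (fieldAn N) : ℤ)).toNat / 2 ≤ finrank ℂ V := by
    omega
  apply le_antisymm h2
  rw [← hR]
  exact_mod_cast h3.trans h1

end Fermat.Agent.X0.S20Core
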